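/-
P-DS / P-ES1 / block ES1-C, row 735 (ES1-C-NORM), helper32, part 1: analysis.
Port of `Fermat.Agent.H58.EsC.NormAn` from `Γ₀(N)` to `G1 M = ⟨Γ₁(M), -1⟩`.

For a holomorphic `G1 M`-invariant function `F` of moderate growth at all cusps and a prime
`p ∤ M`, the coefficients of the polynomial `∏_x (Y - F ∘ famU1 M p x)` are holomorphic,
`G1 M`-invariant and of moderate growth at all cusps; `G1 M` permutes the conjugates
`F ∘ famU1 M p x` transitively.
-/
import Fermat.Agent.H21.Es1C.Coh1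
import Fermat.Agent.H58.EsC.NormAn

set_option autoImplicit false

noncomputable section

open UpperHalfPlane Matrix.SpecialLinearGroup Polynomial CongruenceSubgroup ModularForm
open scoped MatrixGroups ModularForm Manifold OnePoint

namespace Fermat.Agent.H32.Es1C

open Fermat.Agent.H42 Fermat.Agent.H85 Fermat.Agent.H21.Es1C Fermat.Agent.H7.DS
open Fermat.Agent.H29.ES1 Fermat.Agent.H21

/-! ### the family `famU1` -/

section fam

variable (M p : ℕ)

/-- The `SL(2, ℤ)`-part of `famU1 M p x`: `1` at `∞` and `g_p⁻¹` at the finite indices. -/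
def epsU1 (x : OnePoint (ZMod p)) : SL(2, ℤ) :=
  (diamRep M (p : ZMod M))⁻¹ * x.elim (diamRep M (p : ZMod M)) (fun _ => 1)

theorem famU1_eq (x : OnePoint (ZMod p)) :
    famU1 M p x = mapGL ℝ (epsU1 M p x) * hRep p x := by
  unfold famU1 epsU1
  rw [famT1_eq, map_mul, map_inv, mul_assoc]

theorem famU1_infty : famU1 M p ∞ = heckeDiagMatrix p := by
  unfold famU1 famT1
  rw [heckeRep1_infty, inv_mul_cancel_left]

/-- The conjugates `F ∘ famU1 M p x`. -/
def conjU1 (F : ℍ → ℂ) (x : OnePoint (ZMod p)) (z : ℍ) : ℂ := F (famU1 M p x • z)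

theorem conjU1_apply (F : ℍ → ℂ) (x : OnePoint (ZMod p)) (z : ℍ) :
    conjU1 M p F x z = F (famU1 M p x • z) := rfl

theorem conjU1_eq_conjFun (F : ℍ → ℂ) (x : OnePoint (ZMod p)) :
    conjU1 M p F x = conjFun p (fun w => F (epsU1 M p x • w)) x := by
  funext z
  unfold conjU1 conjFun
  rw [famU1_eq, mul_smul]
  rfl

theorem conjU1_infty (F : ℍ → ℂ) (z : ℍ) :
    conjU1 M p F ∞ z = F (heckeDiagMatrix p • z) := by
  rw [conjU1_apply, famU1_infty]

end fam

/-! ### permutation of the conjugates -/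

section perm

variable (M p : ℕ) [NeZero M] [Fact p.Prime] (hpM : ¬ p ∣ M)

include hpM in
/-- Permutation of the conjugates under `G1 M`, for a `G1 M`-invariant function. -/
theorem conjU1_smul (F : ℍ → ℂ) (hF : ∀ g ∈ G1 M, ∀ τ : ℍ, F (g • τ) = F τ)
    (γ : ↥(G1 M)) (x : OnePoint (ZMod p)) (τ : ℍ) :
    conjU1 M p F x ((γ : SL(2, ℤ)) • τ)
      = conjU1 M p F ((rewritingU1 M p hpM).perm γ x) τ := by
  have h := (rewritingU1 M p hpM).spec γ x
  rw [g1ToGL_apply, g1ToGL_apply] at h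
  unfold conjU1
  rw [ModularGroup.sl_moeb, coe_eq_mapGL, ← mul_smul, h, mul_smul, ← coe_eq_mapGL,
    ← ModularGroup.sl_moeb, hF _ ((rewritingU1 M p hpM).kap γ x).2]
  rfl

include hpM in
/-- `G1 M` acts transitively on the conjugates: every index is the image of `∞`. -/
theorem exists_perm_infty (x : OnePoint (ZMod p)) :
    ∃ γ : ↥(G1 M), (rewritingU1 M p hpM).perm γ ∞ = x := by
  have hp : p.Prime := Fact.out
  have hδ := diamRep_mem M (p : ZMod M)
  have hδp := lr_diamRep_prime M hp hpM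
  -- reduction to `redMat`
  have key : ∀ g : SL(2, ℤ), ∀ hg : g ∈ Gamma1 M,
      (rewritingU1 M p hpM).perm ⟨g, Gamma1_le_G1 M hg⟩ ∞ = redMat p g • ∞ := by
    intro g hg
    obtain ⟨g', hg', hmul⟩ := heckeRep1_mul hpM hδ hδp g hg ∞
    refine (rewritingU1 M p hpM).perm_eq
      (κ := ⟨(diamRep M (p : ZMod M))⁻¹ * g' * diamRep M (p : ZMod M),
        Gamma1_le_G1 M (conj_mem_Gamma1' hδ hg')⟩) ?_
    show (mapGL ℝ (diamRep M (p : ZMod M)))⁻¹ * heckeRep1 p (diamRep M (p : ZMod M)) ∞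
        * mapGL ℝ g
      = mapGL ℝ ((diamRep M (p : ZMod M))⁻¹ * g' * diamRep M (p : ZMod M))
        * ((mapGL ℝ (diamRep M (p : ZMod M)))⁻¹
          * heckeRep1 p (diamRep M (p : ZMod M)) (redMat p g • ∞))
    rw [mul_assoc, hmul, map_mul, map_mul, map_inv]
    group
  induction x using OnePoint.rec with
  | infty => exact ⟨1, by rw [Rewriting.perm_one]; rfl⟩
  | coe j =>
    have hM0 : ((M : ℕ) : ZMod p) ≠ 0 := by
      intro h0
      exact hpM ((ZMod.natCast_eq_zero_iff M p).mp h0)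
    set t : ℤ := (((j - ((M : ℕ) : ZMod p)⁻¹ : ZMod p).val : ℕ) : ℤ) with ht
    have htc : ((t : ℤ) : ZMod p) = j - ((M : ℕ) : ZMod p)⁻¹ := by
      rw [ht]
      push_cast
      exact ZMod.natCast_zmod_val _
    let g : SL(2, ℤ) := mkSL 1 t (M : ℤ) (1 + M * t) (by ring)
    have hg : g ∈ Gamma1 M := by
      rw [Gamma1_mem]
      refine ⟨?_, ?_, ?_⟩
      · show (((1 : ℤ) : ℤ) : ZMod M) = 1
        simp
      · show (((1 + M * t : ℤ) : ℤ) : ZMod M) = 1
        simp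
      · show ((((M : ℤ) : ℤ)) : ZMod M) = 0
        simp
    refine ⟨⟨g, Gamma1_le_G1 M hg⟩, ?_⟩
    rw [key g hg, OnePoint.smul_infty_eq_ite]
    have h10 : (redMat p g) 1 0 = ((M : ℕ) : ZMod p) := by
      rw [redMat_apply_one_zero]
      show (((M : ℤ) : ℤ) : ZMod p) = _
      simp
    have h00 : (redMat p g) 0 0 = 1 + ((M : ℕ) : ZMod p) * (j - ((M : ℕ) : ZMod p)⁻¹) := by
      rw [redMat_apply_zero_zero]
      show (((1 + M * t : ℤ) : ℤ) : ZMod p) = _
      push_cast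
      rw [htc]
    rw [h10, h00, if_neg hM0]
    congr 1
    field_simp
    ring

end perm

/-! ### growth -/

section growth

variable (M : ℕ) {p : ℕ} [Fact p.Prime]

/-- Translates of the conjugates are holomorphic of exponential growth. -/
theorem conjU1_translate_mem_nice (F : ℍ → ℂ) (hFd : MDiff F)
    (hFg : ∀ γ : SL(2, ℤ), ExpGrowth (fun z => F (γ • z)))
    (γ : SL(2, ℤ)) (x : OnePoint (ZMod p)) :
    (fun z => conjU1 M p F x (γ • z)) ∈ niceSubring := by
  have h := Fermat.Agent.H58.normAn_conjFun_translate_mem_nice (p := p)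
    (fun w => F (epsU1 M p x • w)) (mdiff_comp_smul_SL hFd _)
    (fun γ' => by
      have h1 := hFg (epsU1 M p x * γ')
      have e : (fun z : ℍ => F ((epsU1 M p x * γ') • z))
          = fun z => (fun w => F (epsU1 M p x • w)) (γ' • z) := by
        funext z
        rw [mul_smul]
      rw [e] at h1
      exact h1) γ x
  rw [← conjU1_eq_conjFun] at h
  exact h

theorem conjU1_mem_nice (F : ℍ → ℂ) (hFd : MDiff F)
    (hFg : ∀ γ : SL(2, ℤ), ExpGrowth (fun z => F (γ • z))) (x : OnePoint (ZMod p)) :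
    conjU1 M p F x ∈ niceSubring := by
  have h := conjU1_translate_mem_nice M F hFd hFg 1 x
  have e : (fun z => conjU1 M p F x ((1 : SL(2, ℤ)) • z)) = conjU1 M p F x := by
    funext z
    rw [one_smul]
  rw [e] at h
  exact h

end growth

/-! ### the polynomial and its coefficient functions -/

section coeffFn

variable (M p : ℕ) [NeZero p]

/-- `∏_x (Y - F ∘ famU1 M p x)`. -/
def PhiU1 (F : ℍ → ℂ) (z : ℍ) : ℂ[X] :=
  ∏ x : OnePoint (ZMod p), (X - C (conjU1 M p F x z))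

/-- The coefficient functions of `∏_x (Y - F ∘ famU1 M p x)`. -/
def normCoeffU1 (F : ℍ → ℂ) (k : ℕ) : ℍ → ℂ := fun z => (PhiU1 M p F z).coeff k

theorem normCoeffU1_apply (F : ℍ → ℂ) (k : ℕ) (z : ℍ) :
    normCoeffU1 M p F k z = (PhiU1 M p F z).coeff k := rfl

theorem PhiU1_monic (F : ℍ → ℂ) (z : ℍ) : (PhiU1 M p F z).Monic :=
  monic_prod_X_sub_C _ _

theorem PhiU1_natDegree (F : ℍ → ℂ) (z : ℍ) : (PhiU1 M p F z).natDegree = p + 1 := by
  unfold PhiU1
  rw [natDegree_finsetProd_X_sub_C_eq_card, Finset.card_univ]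
  have h1 : Fintype.card (OnePoint (ZMod p)) = Fintype.card (Option (ZMod p)) := rfl
  rw [h1, Fintype.card_option, ZMod.card]

theorem normCoeffU1_top (F : ℍ → ℂ) : normCoeffU1 M p F (p + 1) = fun _ => 1 := by
  funext z
  rw [normCoeffU1_apply, ← PhiU1_natDegree M p F z]
  exact (PhiU1_monic M p F z).coeff_natDegree

theorem normCoeffU1_eq_zero (F : ℍ → ℂ) {k : ℕ} (hk : p + 1 < k) :
    normCoeffU1 M p F k = fun _ => 0 := by
  funext z
  rw [normCoeffU1_apply]
  exact coeff_eq_zero_of_natDegree_lt (by rw [PhiU1_natDegree]; exact hk)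

theorem normCoeffU1_zero (F : ℍ → ℂ) (z : ℍ) :
    normCoeffU1 M p F 0 z = (-1) ^ (p + 1) * ∏ x : OnePoint (ZMod p), conjU1 M p F x z := by
  rw [normCoeffU1_apply, coeff_zero_eq_eval_zero]
  unfold PhiU1
  rw [eval_prod]
  simp only [eval_sub, eval_X, eval_C, zero_sub]
  rw [Finset.prod_neg, Finset.card_univ]
  have h1 : Fintype.card (OnePoint (ZMod p)) = Fintype.card (Option (ZMod p)) := rfl
  rw [h1, Fintype.card_option, ZMod.card]

variable [NeZero M] [Fact p.Prime]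

/-- The polynomial `∏_x (Y - F ∘ famU1 M p x)` is `G1 M`-invariant. -/
theorem PhiU1_smul (hpM : ¬ p ∣ M) (F : ℍ → ℂ)
    (hF : ∀ g ∈ G1 M, ∀ τ : ℍ, F (g • τ) = F τ)
    (g : SL(2, ℤ)) (hg : g ∈ G1 M) (τ : ℍ) :
    PhiU1 M p F (g • τ) = PhiU1 M p F τ := by
  unfold PhiU1
  have e : ∀ x : OnePoint (ZMod p), conjU1 M p F x (g • τ)
      = conjU1 M p F ((rewritingU1 M p hpM).perm ⟨g, hg⟩ x) τ :=
    fun x => conjU1_smul M p hpM F hF ⟨g, hg⟩ x τ
  simp_rw [e]
  exact Equiv.prod_comp ((rewritingU1 M p hpM).perm ⟨g, hg⟩)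
    (fun x => X - C (conjU1 M p F x τ))

theorem normCoeffU1_smul (hpM : ¬ p ∣ M) (F : ℍ → ℂ)
    (hF : ∀ g ∈ G1 M, ∀ τ : ℍ, F (g • τ) = F τ) (k : ℕ)
    (g : SL(2, ℤ)) (hg : g ∈ G1 M) (z : ℍ) :
    normCoeffU1 M p F k (g • z) = normCoeffU1 M p F k z := by
  rw [normCoeffU1_apply, normCoeffU1_apply, PhiU1_smul M p hpM F hF g hg]

omit [NeZero M] in
theorem normCoeffU1_mem_nice (F : ℍ → ℂ) (hFd : MDiff F)
    (hFg : ∀ γ : SL(2, ℤ), ExpGrowth (fun z => F (γ • z))) (k : ℕ) (γ : SL(2, ℤ)) :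
    (fun z => normCoeffU1 M p F k (γ • z)) ∈ niceSubring :=
  Fermat.Agent.H58.normAn_coeff_prod_mem_nice (fun x z => conjU1 M p F x (γ • z))
    (fun x => conjU1_translate_mem_nice M F hFd hFg γ x) k

omit [NeZero M] in
theorem normCoeffU1_mdiff (F : ℍ → ℂ) (hFd : MDiff F)
    (hFg : ∀ γ : SL(2, ℤ), ExpGrowth (fun z => F (γ • z))) (k : ℕ) :
    MDiff (normCoeffU1 M p F k) := by
  have h := (normCoeffU1_mem_nice M p F hFd hFg k 1).1
  have e : (fun z => normCoeffU1 M p F k ((1 : SL(2, ℤ)) • z)) = normCoeffU1 M p F k := by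
    funext z
    rw [one_smul]
  rw [e] at h
  exact h

omit [NeZero M] in
theorem normCoeffU1_growth (F : ℍ → ℂ) (hFd : MDiff F)
    (hFg : ∀ γ : SL(2, ℤ), ExpGrowth (fun z => F (γ • z))) (k : ℕ) :
    Fermat.Agent.H23.EsA.ModerateGrowth (normCoeffU1 M p F k) := by
  intro γ
  obtain ⟨-, m, C, Y, -, hb⟩ := normCoeffU1_mem_nice M p F hFd hFg k γ
  exact ⟨m, C, Y, fun z hz => hb z hz⟩

end coeffFn

end Fermat.Agent.H32.Es1C

end
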