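/-
P-DS / P-ES1 / block ES1-C, row 735 (ES1-C-NORM), helper32, part 2: assembly.
Port of `Fermat.Agent.H58.EsC.NormRep` to the model `model1 M` of `X₁(M)`.

`normRep1_of_parts` : `NormRep1Statement` from `Model1Statement` (the model of `X₁(M)` is
modular) and the degree `[F1C(M)(f(q^p)) : F1C(M)] = p + 1` of `α` (row ES1-C-DEGC).

Proof.  Let `h = β f`; it is represented by `F ∘ famU1 ∞ = F(p z)`.  The polynomial
`P = ∏_x (Y - F ∘ famU1 x)` has coefficients in `F1C M` (HOL) and `P(h) = 0`.  By the algebraic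
criterion `H58.normAlg_eq_pow_minpoly` (evaluation at the points of `ℍ`, using that `G1 M` permutes
the conjugates transitively), `P` is a power of the minimal polynomial of `h`; since
`deg P = p + 1 = [L : F1C M]`, the norm of `h` is `(-1)^(p+1) P(0) = ∏_x F ∘ famU1 x`.
-/
import Fermat.Agent.H32.Es1C.NormAn1
import Fermat.Agent.H58.EsC.NormRep
import Fermat.Agent.H60.ES1A.Grow
import Fermat.Agent.H5.ES1A.MF
import Fermat.Agent.H23.ES1A.Unconditional

set_option autoImplicit false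
set_option linter.style.haveILetI false

noncomputable section

open UpperHalfPlane Matrix.SpecialLinearGroup Polynomial AlgebraicCurve ModularCurve
open scoped MatrixGroups ModularForm Manifold OnePoint

namespace Fermat.Agent.H32.Es1C

open Fermat.Agent.H42 Fermat.Agent.H44 Fermat.Agent.H85 Fermat.Agent.H23
open Fermat.Agent.H21.Es1C Fermat.Agent.H29.ES1 Fermat.Agent.H7.DS

section transfer

variable (M p : ℕ) [NeZero M] [NeZero p]

/-- Transfer of polynomial evaluation along `LaurentRel`. -/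
theorem normRep1_aeval (Q : Polynomial ↥(F1C M)) (q : ℕ → ℍ → ℂ)
    (hq : ∀ k, LaurentRel (q k) ((Q.coeff k : ↥(F1C M)) : LaurentSeries ℂ))
    (h : ↥(laurentBaseChange ℂ (heckeField (F1 M) p))) (H : ℍ → ℂ)
    (hH : LaurentRel H (h : LaurentSeries ℂ))
    (n : ℕ) (hn : Q.natDegree < n) :
    LaurentRel (fun z => ∑ k ∈ Finset.range n, q k z * H z ^ k)
      ((@Polynomial.aeval ↥(F1C M) ↥(laurentBaseChange ℂ (heckeField (F1 M) p)) _ _
        (algebraAlong (alphaGen ℂ (F1 M) p)) h Q :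
          ↥(laurentBaseChange ℂ (heckeField (F1 M) p))) : LaurentSeries ℂ) := by
  letI := algebraAlong (alphaGen ℂ (F1 M) p)
  rw [Polynomial.aeval_eq_sum_range' hn]
  have e : ((∑ i ∈ Finset.range n, Q.coeff i • h ^ i :
        ↥(laurentBaseChange ℂ (heckeField (F1 M) p))) : LaurentSeries ℂ)
      = ∑ i ∈ Finset.range n, ((Q.coeff i : ↥(F1C M)) : LaurentSeries ℂ)
          * (h : LaurentSeries ℂ) ^ i := by
    change (laurentBaseChange ℂ (heckeField (F1 M) p)).val
      (∑ i ∈ Finset.range n, Q.coeff i • h ^ i) = _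
    rw [map_sum]
    refine Finset.sum_congr rfl fun i _ => ?_
    rw [Algebra.smul_def, map_mul, map_pow]
    rfl
  have e2 : (fun z => ∑ k ∈ Finset.range n, q k z * H z ^ k)
      = ∑ k ∈ Finset.range n, q k * H ^ k := by
    funext z
    simp [Finset.sum_apply]
  rw [e, e2]
  exact LaurentRel.sum _ fun i _ => (hq i).mul (Fermat.Agent.H58.normRep_laurentRel_pow hH i)

end transfer

/-- `Model.IsModular.frac` for `model1 M`, with the types unfolded. -/
theorem model1_frac (M : ℕ) [NeZero M] (hX : (model1 M).IsModular) (f : ↥(F1C M)) :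
    ∃ r s : ↥(F1C M), r ∈ R1 M ∧ s ∈ R1 M ∧ s ≠ 0 ∧ f * s = r :=
  hX.frac f

/-- `Model.IsModular.rep` for `model1 M`, with the types unfolded. -/
theorem model1_rep (M : ℕ) [NeZero M] (hX : (model1 M).IsModular) (r : ↥(F1C M))
    (hr : r ∈ R1 M) :
    ∃ h : ℍ → ℂ, LaurentRel h ((r : ↥(F1C M)) : LaurentSeries ℂ) ∧ MDiff h ∧
      (∀ γ ∈ G1 M, ∀ z : ℍ, h (γ • z) = h z) ∧ Fermat.Agent.H23.EsA.ModerateGrowth h :=
  hX.rep r hr

/-- The data: a ring homomorphism from `R1 M` to functions on `ℍ` representing the elements. -/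
theorem normRep1_exists_theta (M : ℕ) [NeZero M] (hX : (model1 M).IsModular) :
    ∃ Θ : ↥(R1 M) →+* (ℍ → ℂ),
      ∀ r : ↥(R1 M), LaurentRel (Θ r) (((r : ↥(F1C M)) : ↥(F1C M)) : LaurentSeries ℂ) := by
  have h := gen11_exists_lift
    ((algebraMap ↥(F1C M) (LaurentSeries ℂ)).comp (algebraMap ↥(R1 M) ↥(F1C M))) (fun r => by
      obtain ⟨h, hh, -⟩ := model1_rep M hX (r : ↥(F1C M)) r.2
      exact ⟨h, hh⟩)
  obtain ⟨Θ, hΘ⟩ := h
  exact ⟨Θ, fun r => hΘ r⟩

theorem normRep1_isFractionRing (M : ℕ) [NeZero M] (hX : (model1 M).IsModular) :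
    IsFractionRing ↥(R1 M) ↥(F1C M) := by
  apply IsFractionRing.of_field
  intro f
  obtain ⟨r, s, hr, hs, hs0, hfs⟩ := model1_frac M hX f
  refine ⟨⟨r, hr⟩, ⟨s, hs⟩, ?_⟩
  change f = r / s
  rw [eq_div_iff hs0]
  exact hfs

/-- `famU1 M p ∞ • z = p z`. -/
theorem normRep1_conjU1_infty (M p : ℕ) [NeZero p] (F : ℍ → ℂ) :
    conjU1 M p F ∞ = F ∘ scaleH p := by
  funext z
  rw [conjU1_infty, Function.comp_apply]
  congr 1
  apply UpperHalfPlane.ext
  rw [ModularForm.coe_heckeDiagMatrix_smul (NeZero.ne p), coe_scaleH]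

/-- **ES1-C-NORM** from the modularity of the model and the degree of `α`. -/
theorem normRep1_of_parts (hX : Model1Statement)
    (hDeg : ∀ (M : ℕ) [NeZero M], 5 ≤ M → ∀ (p : ℕ) [NeZero p], p.Prime → ¬ p ∣ M →
      finrankAlong ℂ (alphaGen ℂ (F1 M) p) = p + 1) :
    Fermat.Agent.H21.Es1C.NormRep1Statement := by
  intro M _ hM p _ hp hpM f F hFd hFf
  haveI : Fact p.Prime := ⟨hp⟩
  have hXM : (model1 M).IsModular := hX M hM
  -- invariance and growth of `F`
  have hFf' : LaurentRel F ((f : ↥(F1C M)) : LaurentSeries ℂ) := hFf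
  obtain ⟨hFinv', hFg'⟩ := Fermat.Agent.H60.ES1A.grow_invariant_growth (model1 M) hXM f F hFf
  have hFinv : ∀ g ∈ G1 M, ∀ τ : ℍ, F (g • τ) = F τ := hFinv'
  have hFg : ∀ γ : SL(2, ℤ), ExpGrowth (fun z => F (γ • z)) := fun γ => hFg' γ
  have hHol : ∀ h : ℍ → ℂ, MDiff h → (∀ γ ∈ G1 M, ∀ z : ℍ, h (γ • z) = h z) →
      Fermat.Agent.H23.EsA.ModerateGrowth h →
      ∃ c : ↥(F1C M), LaurentRel h ((c : ↥(F1C M)) : LaurentSeries ℂ) :=
    Fermat.Agent.H5.ES1A.holModular (model1 M) hXM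
      (Fermat.Agent.H23.ES1A.degreeStatement (model1 M) hXM)
  -- the coefficients
  have hex : ∀ k, ∃ c : ↥(F1C M),
      LaurentRel (normCoeffU1 M p F k) ((c : ↥(F1C M)) : LaurentSeries ℂ) := fun k =>
    hHol _ (normCoeffU1_mdiff M p F hFd hFg k)
      (fun g hg z => normCoeffU1_smul M p hpM F hFinv k g hg z)
      (normCoeffU1_growth M p F hFd hFg k)
  choose c hc using hex
  have hctop : c (p + 1) = 1 := by
    have h1 := hc (p + 1)
    rw [normCoeffU1_top] at h1
    exact Subtype.ext (LaurentRel.unique_right h1 laurentRel_one)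
  have hczero : ∀ k, p + 1 < k → c k = 0 := by
    intro k hk
    have h1 := hc k
    rw [normCoeffU1_eq_zero M p F hk] at h1
    exact Subtype.ext (LaurentRel.unique_right h1 laurentRel_zero)
  -- the polynomial
  set P : Polynomial ↥(F1C M) := ∑ k ∈ Finset.range (p + 2), C (c k) * X ^ k with hPdef
  have hPcoeff : ∀ k, P.coeff k = c k := by
    intro k
    rw [hPdef, finsetSum_coeff]
    simp only [coeff_C_mul_X_pow]
    by_cases hk : k < p + 2
    · rw [Finset.sum_eq_single k]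
      · simp
      · intro b _ hbk
        rw [if_neg (Ne.symm hbk)]
      · intro hk'
        exact absurd (Finset.mem_range.mpr hk) hk'
    · rw [hczero k (by omega)]
      apply Finset.sum_eq_zero
      intro b hb
      rw [if_neg]
      intro h
      rw [h] at hk
      exact hk (Finset.mem_range.mp hb)
  have hPdeg_le : P.natDegree ≤ p + 1 :=
    natDegree_le_iff_coeff_eq_zero.mpr (fun k hk => by rw [hPcoeff, hczero k hk])
  have hPmonic : P.Monic :=
    monic_of_natDegree_le_of_coeff_eq_one (p + 1) hPdeg_le (by rw [hPcoeff, hctop])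
  have hPdeg : P.natDegree = p + 1 :=
    le_antisymm hPdeg_le (le_natDegree_of_ne_zero (by rw [hPcoeff, hctop]; exact one_ne_zero))
  -- the algebraic setting
  letI alg : Algebra ↥(F1C M) ↥(laurentBaseChange ℂ (heckeField (F1 M) p)) :=
    algebraAlong (alphaGen ℂ (F1 M) p)
  letI mod : Module ↥(F1C M) ↥(laurentBaseChange ℂ (heckeField (F1 M) p)) := alg.toModule
  have hfinrank : Module.finrank ↥(F1C M) ↥(laurentBaseChange ℂ (heckeField (F1 M) p)) = p + 1 :=
    hDeg M hM p hp hpM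
  haveI : FiniteDimensional ↥(F1C M) ↥(laurentBaseChange ℂ (heckeField (F1 M) p)) :=
    Module.finite_of_finrank_pos (by rw [hfinrank]; omega)
  haveI := normRep1_isFractionRing M hXM
  obtain ⟨Θ, hΘ⟩ := normRep1_exists_theta M hXM
  have hΘinv : ∀ (r : ↥(R1 M)), ∀ g ∈ G1 M, ∀ z : ℍ, Θ r (g • z) = Θ r z := by
    intro r g hg z
    obtain ⟨h0, hh0, -, hinv, -⟩ := model1_rep M hXM (r : ↥(F1C M)) r.2
    have e : Θ r = h0 := LaurentRel.unique_left (hΘ r) hh0
    rw [e]
    exact hinv g hg z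
  set h : ↥(laurentBaseChange ℂ (heckeField (F1 M) p)) := betaGen ℂ (F1 M) p f with hh
  have hH : LaurentRel (conjU1 M p F ∞) (h : LaurentSeries ℂ) := by
    rw [normRep1_conjU1_infty]
    exact LaurentRel.scale hFf' p
  -- `P(h) = 0`
  have hPh : aeval h P = 0 := by
    have h1 := normRep1_aeval M p P (normCoeffU1 M p F) (fun k => by rw [hPcoeff]; exact hc k)
      h _ hH (p + 2) (by omega)
    have h2 : (fun z => ∑ k ∈ Finset.range (p + 2),
        normCoeffU1 M p F k z * conjU1 M p F ∞ z ^ k) = 0 := by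
      funext z
      have h3 : (PhiU1 M p F z).eval (conjU1 M p F ∞ z) = 0 := by
        unfold PhiU1
        rw [eval_prod]
        exact Finset.prod_eq_zero (Finset.mem_univ (∞ : OnePoint (ZMod p))) (by simp)
      rw [eval_eq_sum_range' (by rw [PhiU1_natDegree]; omega :
        (PhiU1 M p F z).natDegree < p + 2)] at h3
      exact h3
    rw [h2] at h1
    exact Subtype.ext (h1.unique_right laurentRel_zero)
  -- separation
  have hev : ∀ a : ↥(R1 M), a ≠ 0 →
      ∃ z, ((Pi.evalRingHom (fun _ : ℍ => ℂ) z).comp Θ) a ≠ 0 := by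
    intro a ha
    by_contra hcon
    push Not at hcon
    have hz : Θ a = 0 := funext fun z => hcon z
    have h1 : LaurentRel (0 : ℍ → ℂ) (((a : ↥(F1C M)) : ↥(F1C M)) : LaurentSeries ℂ) :=
      hz ▸ hΘ a
    have h2 : (((a : ↥(F1C M)) : ↥(F1C M)) : LaurentSeries ℂ) = 0 :=
      LaurentRel.unique_right h1 laurentRel_zero
    exact ha (Subtype.ext (Subtype.ext h2))
  -- roots
  have hroot : ∀ Q : Polynomial ↥(R1 M),
      aeval h (Q.map (algebraMap ↥(R1 M) ↥(F1C M))) = 0 →
      ∀ (z : ℍ) (x : OnePoint (ZMod p)),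
        (Q.map ((Pi.evalRingHom (fun _ : ℍ => ℂ) z).comp Θ)).eval (conjU1 M p F x z) = 0 := by
    intro Q hQ z x
    have h1 := normRep1_aeval M p (Q.map (algebraMap ↥(R1 M) ↥(F1C M)))
      (fun k => Θ (Q.coeff k))
      (fun k => by rw [coeff_map]; exact hΘ (Q.coeff k)) h _ hH (Q.natDegree + 1)
      (Nat.lt_succ_of_le natDegree_map_le)
    rw [hQ] at h1
    have h2 := h1.unique_left laurentRel_zero
    obtain ⟨γ, hγx⟩ := exists_perm_infty M p hpM x
    have h3 := congrFun h2 ((γ : SL(2, ℤ)) • z)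
    simp only [Pi.zero_apply] at h3
    rw [eval_map, eval₂_eq_sum_range' _ (Nat.lt_succ_self _)]
    rw [← h3]
    refine Finset.sum_congr rfl fun k _ => ?_
    rw [conjU1_smul M p hpM F hFinv γ, hγx, hΘinv (Q.coeff k) _ γ.2 z]
    rfl
  -- product
  have hprod : ∀ (b : ↥(R1 M)) (Q : Polynomial ↥(R1 M)),
      Q.map (algebraMap ↥(R1 M) ↥(F1C M)) = C (algebraMap ↥(R1 M) ↥(F1C M) b) * P →
      ∀ z : ℍ, Q.map ((Pi.evalRingHom (fun _ : ℍ => ℂ) z).comp Θ)
        = C (((Pi.evalRingHom (fun _ : ℍ => ℂ) z).comp Θ) b)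
          * ∏ x : OnePoint (ZMod p), (X - C (conjU1 M p F x z)) := by
    intro b Q hQ z
    ext k
    rw [coeff_map, coeff_C_mul]
    have h1 : Θ (Q.coeff k) = Θ b * normCoeffU1 M p F k := by
      refine LaurentRel.unique_left (hΘ (Q.coeff k)) ?_
      have h2 := congrArg (fun R => R.coeff k) hQ
      simp only [coeff_map, coeff_C_mul, hPcoeff] at h2
      have h3 : (((Q.coeff k : ↥(R1 M)) : ↥(F1C M)) : LaurentSeries ℂ)
          = (((b : ↥(R1 M)) : ↥(F1C M)) : LaurentSeries ℂ)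
            * ((c k : ↥(F1C M)) : LaurentSeries ℂ) := by
        have h4 := congrArg (fun y : ↥(F1C M) => (y : LaurentSeries ℂ)) h2
        exact h4
      rw [h3]
      exact (hΘ b).mul (hc k)
    have h5 := congrFun h1 z
    exact h5
  obtain ⟨e, he⟩ := Fermat.Agent.H58.normAlg_eq_pow_minpoly (A := ↥(R1 M)) (K := ↥(F1C M))
    (L := ↥(laurentBaseChange ℂ (heckeField (F1 M) p))) (Ω := ℂ) (Z := ℍ)
    (ι := OnePoint (ZMod p))
    (fun z => (Pi.evalRingHom (fun _ : ℍ => ℂ) z).comp Θ) hev (fun z x => conjU1 M p F x z)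
    h P hPmonic hPh hroot hprod
  have hnorm := Fermat.Agent.H58.normAlg_norm_eq_of_eq_pow_minpoly h P e he
    (by rw [hPdeg, hfinrank])
  -- conclusion
  change LaurentRel (heckeProdU1 M p F)
    ((Algebra.norm ↥(F1C M) h : ↥(F1C M)) : LaurentSeries ℂ)
  rw [hnorm, hfinrank, hPcoeff]
  have e1 : heckeProdU1 M p F
      = (fun _ => ((-1 : ℂ)) ^ (p + 1)) * normCoeffU1 M p F 0 := by
    funext z
    rw [Pi.mul_apply, normCoeffU1_zero, ← mul_assoc, ← pow_add]
    have : ((-1 : ℂ)) ^ (p + 1 + (p + 1)) = 1 := by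
      rw [← two_mul, pow_mul]
      simp
    rw [this, one_mul]
    rfl
  have e2 : ((((-1) ^ (p + 1) * c 0 : ↥(F1C M)) : ↥(F1C M)) : LaurentSeries ℂ)
      = HahnSeries.C ((-1 : ℂ) ^ (p + 1)) * ((c 0 : ↥(F1C M)) : LaurentSeries ℂ) := by
    rw [map_pow, map_neg, map_one]
    rfl
  rw [e1, e2]
  exact (laurentRel_const _).mul (hc 0)

end Fermat.Agent.H32.Es1C

end
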