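/-
P-DS / P-ES1 / block ES1-C, row 735 (ES1-C-NORM), helper32, final:
`normRep1 : NormRep1Statement`, conditional ONLY on the degree equality of row ES1-C-DEGC
(`finrankAlong ℂ (alphaGen ℂ (F1 M) p) = p + 1`).  The modularity of the model `model1 M` is
discharged by the landed rows ES1-GEN-b1/b2/c and ES1-MODEL.
-/
import Fermat.Agent.H32.Es1C.NormRep1
import Fermat.Agent.H32.ES1.Model1
import Fermat.Agent.H99.ES1.VFun
import Fermat.Agent.H60.LatSum
import Fermat.Agent.H87.ES1.LatSumQExp

set_option autoImplicit false

noncomputable section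

open AlgebraicCurve ModularCurve

namespace Fermat.Agent.H32.Es1C

open Fermat.Agent.H29.ES1

/-- The degree equality of row ES1-C-DEGC. -/
def DegC1Statement : Prop :=
  ∀ (M : ℕ) [NeZero M], 5 ≤ M → ∀ (p : ℕ) [NeZero p], p.Prime → ¬ p ∣ M →
    finrankAlong ℂ (alphaGen ℂ (F1 M) p) = p + 1

/-- **ES1-MODEL**, unconditional (same as `Fermat.Agent.H29.ES1.model1_isModular`, with a
smaller import closure). -/
theorem model1Modular : Model1Statement :=
  Fermat.Agent.H32.ES1M.model1Statement
    (Fermat.Agent.H99.ES1.vFunStatement Fermat.Agent.H60.latSumStatement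
      Fermat.Agent.H87.ES1.latSumQExp)

/-- **ES1-C-NORM** (row 735): if the holomorphic function `F` represents `f ∈ F1C M`, then the
product of its translates by `famU1 M p` represents the norm of `β f` along `α`. -/
theorem normRep1 (hDeg : DegC1Statement) : Fermat.Agent.H21.Es1C.NormRep1Statement :=
  normRep1_of_parts model1Modular hDeg

end Fermat.Agent.H32.Es1C

end
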